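import Mathlib
import Fermat.Agent.MUL.Lib.TraceRigidity.Density
import Fermat.Agent.MUL.F3.FrobDensityLiteFinal
import Fermat.Agent.MUL.Orig.Lib.Frobenius.Exists
import Fermat.Agent.MUL.Orig.S27.GR.LiftBasis

section MergeWrap_S35_SMO_Core -- from S35/SMO/Core.lean

set_option autoImplicit false
set_option linter.style.haveILetI false

noncomputable section

namespace Fermat.Agent.S35SMO

open Polynomial IsLocalRing Module

local notation "GQ" => (AlgebraicClosure ℚ ≃ₐ[ℚ] AlgebraicClosure ℚ)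

/-- The characteristic polynomial commutes with `baseChangeAlong`. -/
theorem charpoly_baseChangeAlong {A B : Type} [CommRing A] [IsLocalRing A] [CommRing B]
    [IsLocalRing B] (φ : A →+* B) (hφ : IsLocalHom φ) (ρ : GaloisRepAdic A) (σ : GQ) :
    LinearMap.charpoly ((ρ.baseChangeAlong φ hφ).ρ σ) = (LinearMap.charpoly (ρ.ρ σ)).map φ := by
  letI : Algebra A B := φ.toAlgebra
  exact LinearMap.charpoly_baseChange (A := B) (ρ.ρ σ)

/-- The trace of an endomorphism of a free module of rank two with characteristic polynomial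
`X² - a X + b` is `a`. -/
theorem trace_eq_of_charpoly_eq {A : Type*} [CommRing A] [Nontrivial A] {V : Type*}
    [AddCommGroup V] [Module A V] [Module.Free A V] [Module.Finite A V]
    (hV : Module.finrank A V = 2) (f : Module.End A V) (a b : A)
    (h : f.charpoly = X ^ 2 - C a * X + C b) : LinearMap.trace A V f = a := by
  classical
  set bs : Basis (Fin 2) A V := Module.finBasisOfFinrankEq A V hV
  rw [LinearMap.trace_eq_matrix_trace A bs, Matrix.trace_eq_neg_charpoly_coeff,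
    LinearMap.charpoly_toMatrix, h]
  simp [coeff_C]

/-- **Frobenius traces outside a finite set determine all Frobenius traces** (two
representations over a tower of coefficient rings). -/
theorem eq_of_charpoly_tower {O₁ O₂ : Type} [CommRing O₁] [IsLocalRing O₁] [CommRing O₂]
    [IsLocalRing O₂] [IsNoetherianRing O₂] (φ : O₁ →+* O₂) (hφ : IsLocalHom φ)
    (ρ₁ : GaloisRepAdic O₁) (ρ₂ : GaloisRepAdic O₂) (a₁ : ℕ → O₁) (a₂ : ℕ → O₂)
    (S₀ S : Finset ℕ)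
    (h₁ : ∀ ℓ : ℕ, ℓ.Prime → ℓ ∉ S₀ →
      ∀ A : ValuationSubring (AlgebraicClosure ℚ), A.LiesOverPrime ℓ →
        ∀ σ : GQ, A.IsFrobeniusAt σ ℓ →
          LinearMap.charpoly (ρ₁.ρ σ) = X ^ 2 - C (a₁ ℓ) * X + C ((ℓ : O₁)))
    (h₂ : ∀ ℓ : ℕ, ℓ.Prime → ℓ ∉ S₀ →
      ∀ A : ValuationSubring (AlgebraicClosure ℚ), A.LiesOverPrime ℓ →
        ∀ σ : GQ, A.IsFrobeniusAt σ ℓ →
          LinearMap.charpoly (ρ₂.ρ σ) = X ^ 2 - C (a₂ ℓ) * X + C ((ℓ : O₂)))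
    (h : ∀ ℓ : ℕ, ℓ.Prime → ℓ ∉ S → φ (a₁ ℓ) = a₂ ℓ) :
    ∀ ℓ : ℕ, ℓ.Prime → ℓ ∉ S₀ → φ (a₁ ℓ) = a₂ ℓ := by
  classical
  -- the base change of `ρ₁`
  have hbc : ∀ ℓ : ℕ, ℓ.Prime → ℓ ∉ S₀ →
      ∀ A : ValuationSubring (AlgebraicClosure ℚ), A.LiesOverPrime ℓ →
        ∀ σ : GQ, A.IsFrobeniusAt σ ℓ →
          LinearMap.charpoly ((ρ₁.baseChangeAlong φ hφ).ρ σ) =
            X ^ 2 - C (φ (a₁ ℓ)) * X + C ((ℓ : O₂)) := by
    intro ℓ hℓ hℓS A hA σ hσ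
    rw [charpoly_baseChangeAlong, h₁ ℓ hℓ hℓS A hA σ hσ]
    simp
  have htr : ∀ s : GQ, LinearMap.trace O₂ (ρ₁.baseChangeAlong φ hφ).V
      ((ρ₁.baseChangeAlong φ hφ).ρ s) = LinearMap.trace O₂ ρ₂.V (ρ₂.ρ s) := by
    refine Fermat.Agent.TraceRigidity.trace_eq_of_charpoly_frob_eq
      Fermat.Agent.F3.frobDensityLite (ρ₁.baseChangeAlong φ hφ) ρ₂ (S₀ ∪ S) ?_
    intro ℓ hℓ hℓS A hA σ hσ
    rw [Finset.mem_union, not_or] at hℓS
    rw [hbc ℓ hℓ hℓS.1 A hA σ hσ, h₂ ℓ hℓ hℓS.1 A hA σ hσ, h ℓ hℓ hℓS.2]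
  intro ℓ hℓ hℓS
  obtain ⟨A, σ, hA, hσ⟩ := Fermat.Agent.FrobExists.exists_frobenius ℓ hℓ
  have e1 := trace_eq_of_charpoly_eq (ρ₁.baseChangeAlong φ hφ).finrank_eq _ _ _
    (hbc ℓ hℓ hℓS A hA σ hσ)
  have e2 := trace_eq_of_charpoly_eq ρ₂.finrank_eq _ _ _ (h₂ ℓ hℓ hℓS A hA σ hσ)
  rw [← e1, ← e2]
  exact htr σ

end Fermat.Agent.S35SMO
end
end MergeWrap_S35_SMO_Core
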